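import Mathlib
import Fermat.Agent.LT.H556.A0

/-!
# Row LT, tower T5: the σ-twisted trace identity (architect helper32) — SPEC v4

OFF-MAIN.  Definitions and Props only; the only theorems are the formal tops at the end and
three one-line instances (`isKType_triv`, `isCyclicOfDegree_id`, `autPreserves_id`).

## v3 = v2 + two changes (chief helper797 #15661 (3); referee helper11 #15733)

* every Prop except T5.01 and T5.09 has ONE more explicit argument `τ : G K → ℂ`, placed after
  the level `𝔫`: the `K_∞`-TYPE (a unitary character of `K_∞ = ∏_w K_w`, `IsKType`).  Test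
  functions satisfy `φ(k₁ g k₂) = τ(k₁)⁻¹ τ(k₂)⁻¹ φ(g)`, automorphic functions `e(g k) = τ(k) e(g)`.
  `τ = trivType` (constant `1`) is v2.  (Over `ℚ`: `τ =` weight `±1` for the target `π(1,sgn)`.)
* `IsTestFn` has two more fields: `ktype : IsKType τ` and `smooth : IsSmoothAtInf φ` (the
  Gelfand--Piatetski-Shapiro estimate behind T5.02 / T5.04 needs derivatives along `N(K_∞)`;
  same definition as `T2.IsSmoothAtInf`).
  No binder of a v2 Prop has moved: a v2 proof is re-typed by adding `τ` to its signature.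

## v4 = v3 + two changes (chief helper797 #15966 R2; FAIL reports helper567 #15946, helper359
#15954, helper130 #15976)

* `IsBorelInvariantFn` has the new field `ray` (right invariance under the ray generator), so
  `IsEK` asks LESS of `φ` (R2); no signature has changed.  The leaves stay true: all kernels
  contain `φ` only through its periodisation `flat r φ`.
* ZERO VECTORS ARE ALLOWED in the orthonormal sequences: the field `orthonormal` of `IsCuspONB`
  and the first hypothesis of T5.01 `LeafAbstractTrace` are replaced by `orth` (`i ≠ j`) and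
  `norm` (`⟨e i, e i⟩ = 1` or `e i = 0`).  So the space of cusp functions may be finite
  dimensional or zero, and `CuspONBExistsC` is elementary (separability + Gram--Schmidt, padded
  by zeros).  The v3 statement of T5.01 is kept as `LeafAbstractTraceStrict` (not used).
  UNCHANGED statements: T5.02 -- T5.09, `GeomUnfold`.  CHANGED: T5.01, `IsCuspONB`.

## Frame = the frame of T1 (helper54) and T3 (helper14); T4 is the instance `σ = id`

* Everything lives on `G K = GL₂(𝔸_K)` (A0) with a Haar measure `μ` of `G K` (Borel σ-algebra).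
* `GL₂(K) \ GL₂(𝔸_K)¹` is realised as a STRICT fundamental domain `F` of `GL₂(K)` inside the
  `slab = {1 ≤ ‖det g‖_𝔸 < 2}` (shape of `T1.FundDomC`); the slab is a fundamental domain of the
  discrete central ray `⟨r⟩`, `r` = the scalar matrix which is `1` at the finite places, the same
  positive real `t` at every infinite place, `‖det r‖_𝔸 = 2` (`IsRayGen`).  No quotient is formed.
  WARNING (why not "modulo the positive scalars `A_∞` at each infinite place"): `GL₂(K)` is not
  discrete modulo `A_∞` when `K` has infinitely many units; modulo the ONE-dimensional ray it is.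
* test functions `φ ∈ C_c(GL₂(𝔸_K))`, smooth at infinity, bi-invariant under `U(𝔫)`, of type `τ`
  under `K_∞` on both sides; `R(φ)ψ(x) = ∫ φ(y) ψ(xy) dy` (= `T3.Rop`); automorphic functions
  are right invariant under `U(𝔫)` and the central ray, of type `τ` under `K_∞`.
* kernels carry the periodisation along the ray: `K_φ(x,y) = ∑_{γ ∈ GL₂(K)} ∑_{m ∈ ℤ} φ(x⁻¹ γ y rᵐ)`.
* `AdelicAut K` : a field automorphism `σ` of `K` with its continuous extension to the adeles.
* `IsEK`        : Eisenstein-killing in the OPERATOR form: `R(φ)` annihilates every continuous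
                  function which is left invariant under `N(𝔸_K) T(K)` (this is the conclusion
                  of `T3.EKKillC`, so `T3.IsEK f α → T5.IsEK` is one application of that leaf).
                  So there is NO continuous term, NO truncation, NO Eisenstein series in T5.

## Tower Prop

`Tower s l k 𝔫 τ` = `STFsigma` (twisted trace identity for products of two EK test functions)
+ `GeomUnfold` (unfolding of the geometric side into σ-conjugacy classes) + `RegularOfIwahori`
(Flicker's regular Iwahori support gives σ-regularity: only classes with elliptic regular norm).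

To use the measure-theoretic Props in another file:
`attribute [local instance] Fermat.Agent.LT.T5.instMeasurableSpaceG`.
-/

set_option autoImplicit false

open IsDedekindDomain NumberField MeasureTheory
open scoped MatrixGroups ComplexConjugate ContDiff

noncomputable section

namespace Fermat.Agent.LT.T5

open Fermat.Agent.LT.H556.A0

variable {K : Type} [Field K] [NumberField K]

/-! ## 1. Components as ring homomorphisms -/

/-- The component at the infinite place `w`, in `ℂ`. -/
def infHom (w : InfinitePlace K) : Adl K →+* ℂ :=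
  (InfinitePlace.Completion.extensionEmbedding w).comp
    ((Pi.evalRingHom (fun v : InfinitePlace K => v.Completion) w).comp
      (RingHom.fst (InfiniteAdeleRing K) (FiniteAdeleRing (𝓞 K) K)))

/-- The component at the finite place `v`. -/
def finHom (v : HeightOneSpectrum (𝓞 K)) : Adl K →+* v.adicCompletion K :=
  (RestrictedProduct.evalRingHom (fun v : HeightOneSpectrum (𝓞 K) => v.adicCompletion K) v).comp
    (RingHom.snd (InfiniteAdeleRing K) (FiniteAdeleRing (𝓞 K) K))

theorem infComp_eq_map (w : InfinitePlace K) (g : G K) :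
    infComp w g = (g : Matrix (Fin 2) (Fin 2) (Adl K)).map (infHom w) := rfl

theorem finComp_eq_map (v : HeightOneSpectrum (𝓞 K)) (g : G K) :
    finComp v g = (g : Matrix (Fin 2) (Fin 2) (Adl K)).map (finHom v) := rfl

/-! ## 2. Rational points, the central ray, the slab -/

/-- `GL₂(K) → GL₂(𝔸_K)`. -/
def ratG : GL (Fin 2) K →* G K :=
  Matrix.GeneralLinearGroup.map (algebraMap K (Adl K))

/-- The module `‖x‖_𝔸 = ∏_{w ∣ ∞} |x_w|^{[K_w : ℝ]} · ∏_v |x_v|_v` (normalised absolute values;
same definition as `T1.adNorm`).  Only meaningful for ideles. -/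
def adNorm (x : Adl K) : ℝ :=
  (∏ w : InfinitePlace K, ‖x.1 w‖ ^ w.mult) * ∏ᶠ v : HeightOneSpectrum (𝓞 K), ‖x.2 v‖

/-- The slab `1 ≤ ‖det g‖_𝔸 < 2` (same definition as `T1.slab`). -/
def slab (K : Type) [Field K] [NumberField K] : Set (G K) :=
  {g | 1 ≤ adNorm (Matrix.det (g : Matrix (Fin 2) (Fin 2) (Adl K))) ∧
    adNorm (Matrix.det (g : Matrix (Fin 2) (Fin 2) (Adl K))) < 2}

/-- `z` lies on the central ray: `1` at every finite place and the same positive real scalar at
every infinite place. -/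
def IsCentralRay (z : G K) : Prop :=
  (∀ v : HeightOneSpectrum (𝓞 K), TrivAtFin v z) ∧
    ∃ t : ℝ, 0 < t ∧ ∀ w : InfinitePlace K, infComp w z = Matrix.diagonal (fun _ => (t : ℂ))

/-- `r` is the generator of the discrete ray: the point of the central ray with
`‖det r‖_𝔸 = t^{2 [K:ℚ]} = 2`. -/
def IsRayGen (r : G K) : Prop :=
  (∀ v : HeightOneSpectrum (𝓞 K), TrivAtFin v r) ∧
    ∃ t : ℝ, 0 < t ∧ t ^ (2 * Module.finrank ℚ K) = 2 ∧
      ∀ w : InfinitePlace K, infComp w r = Matrix.diagonal (fun _ => (t : ℂ))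

/-! ## 3. The automorphism -/

/-- A field automorphism of `K` together with its continuous extension to the adele ring.
(T1: exists and is unique for every `σ`.) -/
structure AdelicAut (K : Type) [Field K] [NumberField K] where
  /-- the automorphism of the field -/
  σ : K ≃+* K
  /-- its extension to the adeles -/
  σA : Adl K ≃+* Adl K
  continuous_σA : Continuous σA
  continuous_symm : Continuous σA.symm
  compat : ∀ x : K, σA (algebraMap K (Adl K) x) = algebraMap K (Adl K) (σ x)

namespace AdelicAut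

variable (s : AdelicAut K)

/-- The automorphism of `GL₂(𝔸_K)`. -/
def onG : G K →* G K := Matrix.GeneralLinearGroup.map (s.σA : Adl K →+* Adl K)

/-- Its inverse. -/
def onGinv : G K →* G K := Matrix.GeneralLinearGroup.map (s.σA.symm : Adl K →+* Adl K)

/-- The automorphism of `GL₂(K)`. -/
def onRat : GL (Fin 2) K →* GL (Fin 2) K :=
  Matrix.GeneralLinearGroup.map (s.σ : K →+* K)

/-- `δ σ(δ) ⋯ σ^{n-1}(δ)`. -/
def normUpTo : ℕ → GL (Fin 2) K → GL (Fin 2) K
  | 0, _ => 1
  | n + 1, δ => δ * s.onRat (normUpTo n δ)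

/-! Equation lemmas of `normUpTo`, REALISED ONCE (ADDITIVE, row-lead helper17, 16:00Z; fix of helper8 /
helper112 / helper493, see `coord/LT-collision-helper8.md`): the grader's kernel checker rejects a
closure in which two modules realise `normUpTo.eq_def`.  No statement of this file is changed. -/

theorem normUpTo_eqns_realised : True := by
  have _h0 := @normUpTo.eq_def
  have _h1 := @normUpTo.eq_1
  have _h2 := @normUpTo.eq_2
  trivial

end AdelicAut

/-- The trivial automorphism (the frame of T4). -/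
def AdelicAut.id (K : Type) [Field K] [NumberField K] : AdelicAut K where
  σ := RingEquiv.refl K
  σA := RingEquiv.refl (Adl K)
  continuous_σA := continuous_id
  continuous_symm := continuous_id
  compat := fun _ => rfl

/-- `σ` generates a cyclic group of order `l` with fixed field `k` (given as a subfield). -/
structure IsCyclicOfDegree (s : AdelicAut K) (l : ℕ) (k : Subfield K) : Prop where
  pos : 0 < l
  pow_eq : ∀ x : K, (s.σ ^ l) x = x
  fixed : ∀ x : K, x ∈ k ↔ s.σ x = x
  faithful : ∀ j : ℕ, 0 < j → j < l → ∃ x : K, (s.σ ^ j) x ≠ x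

/-! ## 4. Functions on `GL₂(𝔸_K)` -/

/-- A `K_∞`-type: a unitary character of `K_∞ = ∏_w K_w` (`K_w = SO(2)` at a real place,
`U(2)` at a complex place; `A0.IsArchCompact`), given as a function on `GL₂(𝔸_K)` of which only
the values on the elements of the groups `K_w` matter.  (`τ = 1` for the forms of A0; over `ℚ`
the rotation of angle `θ` goes to `e^{± i θ}` for the forms of weight one.) -/
structure IsKType (τ : G K → ℂ) : Prop where
  norm_one : ∀ (w : InfinitePlace K) (k : G K), IsArchCompact w k → ‖τ k‖ = 1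
  mul : ∀ (w : InfinitePlace K) (k k' : G K), IsArchCompact w k → IsArchCompact w k' →
    τ (k * k') = τ k * τ k'
  cont : ∀ w : InfinitePlace K, ContinuousOn τ {k : G K | IsArchCompact w k}

/-- The trivial `K_∞`-type (the frame of v2 and of A0). -/
def trivType : G K → ℂ := fun _ => 1

/-- `φ` is smooth in the archimedean variables: smooth along every smooth finite-dimensional
family of elements supported at the infinite places (same definition as `T2.IsSmoothAtInf`).
Right smoothness implies left smoothness (`h(t) g = g · g⁻¹ h(t) g`) and the smoothness of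
`u ↦ φ(g₁ n(u) g₂)` in the unipotent parameter at the infinite places. -/
def IsSmoothAtInf (φ : G K → ℂ) : Prop :=
  ∀ (n : ℕ) (h : (Fin n → ℝ) → G K),
    (∀ (t : Fin n → ℝ) (v : HeightOneSpectrum (𝓞 K)), TrivAtFin v (h t)) →
    (∀ (w : InfinitePlace K) (i j : Fin 2), ContDiff ℝ ∞ (fun t => infComp w (h t) i j)) →
    ∀ g : G K, ContDiff ℝ ∞ (fun t => φ (g * h t))

/-- Two-sided invariance under the level group `U(𝔫)` and two-sided equivariance of type `τ`
under the maximal compact subgroups at the infinite places: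
`φ(k₁ g k₂) = τ(k₁)⁻¹ τ(k₂)⁻¹ φ(g)` (so that `R(φ)` preserves the functions of type `τ`). -/
structure IsBiInvariant (𝔫 : Ideal (𝓞 K)) (τ : G K → ℂ) (φ : G K → ℂ) : Prop where
  level_right : ∀ u : G K, InLevelGroup 𝔫 u → ∀ g : G K, φ (g * u) = φ g
  level_left : ∀ u : G K, InLevelGroup 𝔫 u → ∀ g : G K, φ (u * g) = φ g
  arch_right : ∀ (w : InfinitePlace K) (k : G K), IsArchCompact w k →
    ∀ g : G K, φ (g * k) = (τ k)⁻¹ * φ g
  arch_left : ∀ (w : InfinitePlace K) (k : G K), IsArchCompact w k →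
    ∀ g : G K, φ (k * g) = (τ k)⁻¹ * φ g

/-- Test functions of level `𝔫` and `K_∞`-type `τ`: continuous, compactly supported on
`GL₂(𝔸_K)`, smooth at infinity, bi-invariant under `U(𝔫)`, of type `τ` under `K_∞`. -/
structure IsTestFn (𝔫 : Ideal (𝓞 K)) (τ : G K → ℂ) (φ : G K → ℂ) : Prop where
  ktype : IsKType τ
  cont : Continuous φ
  supp : HasCompactSupport φ
  smooth : IsSmoothAtInf φ
  inv : IsBiInvariant 𝔫 τ φ

/-- Automorphic functions of level `𝔫` and `K_∞`-type `τ`: left invariant under `GL₂(K)`,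
right invariant under `U(𝔫)` and under the generator `r` of the discrete ray, of type `τ` under
`K_∞` on the right (so they are functions on `GL₂(K) ⟨r⟩ \ GL₂(𝔸_K)`; the forms of A0 are
invariant under all positive scalars at the infinite places, in particular under `r`, and have
the trivial type). -/
structure IsAutomorphicFn (𝔫 : Ideal (𝓞 K)) (τ : G K → ℂ) (r : G K) (e : G K → ℂ) : Prop where
  left_inv : ∀ (γ : GL (Fin 2) K) (g : G K), e (ratG γ * g) = e g
  level_inv : ∀ u : G K, InLevelGroup 𝔫 u → ∀ g : G K, e (g * u) = e g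
  arch_compact : ∀ (w : InfinitePlace K) (k : G K), IsArchCompact w k →
    ∀ g : G K, e (g * k) = τ k * e g
  ray : ∀ g : G K, e (g * r) = e g

/-- Cusp functions of level `𝔫` and type `τ`: continuous bounded automorphic functions with
vanishing constant term (`A0.IsCuspidalFn`).  No eigen-condition, no condition on the central
character beyond invariance under `r`. -/
structure IsCuspFn (𝔫 : Ideal (𝓞 K)) (τ : G K → ℂ) (r : G K) (e : G K → ℂ) : Prop where
  cont : Continuous e
  bdd : ∃ C : ℝ, ∀ g : G K, ‖e g‖ ≤ C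
  aut : IsAutomorphicFn 𝔫 τ r e
  cuspidal : IsCuspidalFn e

/-- The functions killed by Eisenstein-killing test functions: continuous, left invariant under
`N(𝔸_K)` and under the diagonal matrices of `GL₂(K)`, right invariant under the generator of the
discrete ray (the constant terms of the automorphic functions of the frame are of this kind). -/
structure IsBorelInvariantFn (Ψ : G K → ℂ) : Prop where
  cont : Continuous Ψ
  unip : ∀ (n : G K) (x : Adl K), (n : Matrix (Fin 2) (Fin 2) (Adl K)) = !![1, x; 0, 1] →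
    ∀ g : G K, Ψ (n * g) = Ψ g
  torus : ∀ (t : GL (Fin 2) K) (a b : K), (t : Matrix (Fin 2) (Fin 2) K) = !![a, 0; 0, b] →
    ∀ g : G K, Ψ (ratG t * g) = Ψ g
  /-- right invariance under the generator of the discrete ray (v4, ruling R2) -/
  ray : ∃ r : G K, IsRayGen r ∧ ∀ g : G K, Ψ (g * r) = Ψ g

/-! ## 5. Measures, operators, kernels

All measures are measures on `GL₂(𝔸_K)` for the Borel σ-algebra. -/

/-- The Borel σ-algebra of `GL₂(𝔸_K)` (local instance of this file). -/
local instance instMeasurableSpaceG : MeasurableSpace (G K) := borel (G K)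

/-- `μ` is a (left and right) Haar measure on `GL₂(𝔸_K)` and `F` is a strict Borel fundamental
domain of finite volume for `GL₂(K)` in the slab (the shape of `T1.FundDomC` + `T1.UnimodC`). -/
structure IsFrame (μ : Measure (G K)) (F : Set (G K)) : Prop where
  haar : μ.IsHaarMeasure
  right_inv : ∀ (g : G K) (A : Set (G K)), MeasurableSet A → μ ((fun x => x * g) ⁻¹' A) = μ A
  inv_inv : ∀ A : Set (G K), MeasurableSet A → μ ((fun x => x⁻¹) ⁻¹' A) = μ A
  meas : MeasurableSet F
  sub : F ⊆ slab K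
  strict : ∀ g ∈ slab K, ∃! γ : GL (Fin 2) K, ratG γ * g ∈ F
  finite : μ F < ⊤

/-- The automorphism preserves the frame: it is a measure-preserving automorphism of
`GL₂(𝔸_K)` with inverse `onGinv`, compatible with `σ` on `GL₂(K)`, fixing the ray generator and
preserving the slab, the level group and the compact subgroups at the infinite places.
(All of this is TRUE for every `AdelicAut` and a `σ`-stable level; T1.) -/
structure AutPreserves (s : AdelicAut K) (𝔫 : Ideal (𝓞 K)) (μ : Measure (G K)) (r : G K) :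
    Prop where
  left_inverse : ∀ g : G K, s.onGinv (s.onG g) = g
  right_inverse : ∀ g : G K, s.onG (s.onGinv g) = g
  rat : ∀ γ : GL (Fin 2) K, s.onG (ratG γ) = ratG (s.onRat γ)
  cont : Continuous s.onG
  measure : ∀ A : Set (G K), MeasurableSet A → μ (s.onG ⁻¹' A) = μ A
  ray : s.onG r = r
  slab : ∀ g : G K, g ∈ slab K ↔ s.onG g ∈ slab K
  level : ∀ u : G K, InLevelGroup 𝔫 u ↔ InLevelGroup 𝔫 (s.onG u)
  arch : ∀ k : G K, (∃ w, IsArchCompact w k) ↔ (∃ w, IsArchCompact w (s.onG k))

/-- The inner product on the fundamental domain. -/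
def innerD (μ : Measure (G K)) (F : Set (G K)) (e f : G K → ℂ) : ℂ :=
  ∫ x in F, e x * conj (f x) ∂μ

/-- `(R(φ) e)(x) = ∫ φ(y) e(x y) dy` (= `T3.Rop`). -/
def Rconv (μ : Measure (G K)) (φ e : G K → ℂ) : G K → ℂ :=
  fun x => ∫ y, φ y * e (x * y) ∂μ

/-- `(R(σ) e)(x) = e(σ⁻¹ x)`. -/
def Rsig (s : AdelicAut K) (e : G K → ℂ) : G K → ℂ :=
  fun x => e (s.onGinv x)

/-- Convolution `(φ₁ ⋆ φ₂)(g) = ∫ φ₁(y) φ₂(y⁻¹ g) dy`, so that `R(φ₁ ⋆ φ₂) = R(φ₁) R(φ₂)`. -/
def conv (μ : Measure (G K)) (φ₁ φ₂ : G K → ℂ) : G K → ℂ :=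
  fun g => ∫ y, φ₁ y * φ₂ (y⁻¹ * g) ∂μ

/-- Periodisation along the discrete ray: `φ♭(g) = ∑_{m ∈ ℤ} φ(g rᵐ)`. -/
def flat (r : G K) (φ : G K → ℂ) : G K → ℂ :=
  fun g => ∑' m : ℤ, φ (g * r ^ m)

/-- The untwisted kernel `K_φ(x, y) = ∑_{γ ∈ GL₂(K)} φ♭(x⁻¹ γ y)`. -/
def ker0 (r : G K) (φ : G K → ℂ) (x y : G K) : ℂ :=
  ∑' γ : GL (Fin 2) K, flat r φ (x⁻¹ * ratG γ * y)

/-- The twisted kernel `K_φ^σ(x, y) = ∑_{δ ∈ GL₂(K)} φ♭(x⁻¹ δ σ(y))`. -/
def twKer (r : G K) (s : AdelicAut K) (φ : G K → ℂ) (x y : G K) : ℂ :=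
  ∑' δ : GL (Fin 2) K, flat r φ (x⁻¹ * ratG δ * s.onG y)

/-- The diagonal coefficient `⟨R(φ) R(σ) e, e⟩`. -/
def diagCoeff (s : AdelicAut K) (μ : Measure (G K)) (F : Set (G K)) (φ e : G K → ℂ) : ℂ :=
  innerD μ F (Rconv μ φ (Rsig s e)) e

/-- An orthonormal sequence of cusp functions, ZERO VECTORS ALLOWED, which is complete for the
cusp functions.  (Exists by separability and Gram--Schmidt; if the space of cusp functions has
finite dimension the sequence is padded by zeros.) -/
structure IsCuspONB (𝔫 : Ideal (𝓞 K)) (τ : G K → ℂ) (r : G K) (μ : Measure (G K))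
    (F : Set (G K)) (e : ℕ → G K → ℂ) : Prop where
  cusp : ∀ i, IsCuspFn 𝔫 τ r (e i)
  orth : ∀ i j, i ≠ j → innerD μ F (e i) (e j) = 0
  norm : ∀ i, innerD μ F (e i) (e i) = 1 ∨ ∀ g : G K, e i g = 0
  complete : ∀ f : G K → ℂ, IsCuspFn 𝔫 τ r f →
    HasSum (fun i => ‖innerD μ F f (e i)‖ ^ 2) (innerD μ F f f).re

/-- **Eisenstein-killing, operator form** (helper261, after Lindenstrauss–Venkatesh):
`R(φ)` annihilates every continuous function which is left invariant under `N(𝔸_K) T(K)`.
(`T3.EKKillC` : `T3.IsEK ν φ α → ` this.) -/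
def IsEK (μ : Measure (G K)) (φ : G K → ℂ) : Prop :=
  ∀ Ψ : G K → ℂ, IsBorelInvariantFn Ψ → ∀ x : G K, Rconv μ φ Ψ x = 0

/-- The adjoint test function `φ*(g) = conj φ(g⁻¹)`. -/
def adjointFn (φ : G K → ℂ) : G K → ℂ := fun g => conj (φ g⁻¹)

/-! ## 6. σ-conjugacy -/

/-- `δ' = g⁻¹ δ σ(g)` for some `g ∈ GL₂(K)`. -/
def TwConj (s : AdelicAut K) (δ δ' : GL (Fin 2) K) : Prop :=
  ∃ g : GL (Fin 2) K, δ' = g⁻¹ * δ * s.onRat g

theorem twConj_refl (s : AdelicAut K) (δ : GL (Fin 2) K) : TwConj s δ δ :=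
  ⟨1, by simp⟩

theorem twConj_symm (s : AdelicAut K) {δ δ' : GL (Fin 2) K} (h : TwConj s δ δ') :
    TwConj s δ' δ := by
  obtain ⟨g, rfl⟩ := h
  exact ⟨g⁻¹, by simp [mul_assoc]⟩

theorem twConj_trans (s : AdelicAut K) {δ δ' δ'' : GL (Fin 2) K} (h : TwConj s δ δ')
    (h' : TwConj s δ' δ'') : TwConj s δ δ'' := by
  obtain ⟨g, rfl⟩ := h
  obtain ⟨g', rfl⟩ := h'
  exact ⟨g * g', by simp [mul_assoc]⟩

/-- The setoid of σ-conjugacy on `GL₂(K)`. -/
def twSetoid (s : AdelicAut K) : Setoid (GL (Fin 2) K) where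
  r := TwConj s
  iseqv := ⟨twConj_refl s, twConj_symm s, twConj_trans s⟩

/-- The σ-conjugacy classes of `GL₂(K)`. -/
abbrev TwClass (s : AdelicAut K) : Type := Quotient (twSetoid s)

/-- The σ-centraliser of `δ` in `GL₂(K)`. -/
def twStab (s : AdelicAut K) (δ : GL (Fin 2) K) : Subgroup (GL (Fin 2) K) where
  carrier := {g | g⁻¹ * δ * s.onRat g = δ}
  one_mem' := by simp
  mul_mem' := by
    intro a b ha hb
    simp only [Set.mem_setOf_eq] at ha hb ⊢
    calc (a * b)⁻¹ * δ * s.onRat (a * b)
        = b⁻¹ * (a⁻¹ * δ * s.onRat a) * s.onRat b := by simp [mul_assoc]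
      _ = δ := by rw [ha, hb]
  inv_mem' := by
    intro a ha
    simp only [Set.mem_setOf_eq] at ha ⊢
    calc a⁻¹⁻¹ * δ * s.onRat a⁻¹
        = a * (a⁻¹ * δ * s.onRat a) * (s.onRat a)⁻¹ := by rw [ha]; simp
      _ = δ := by simp [mul_assoc]

/-- `Fδ` is a strict Borel fundamental domain in the slab for the σ-centraliser `G^σ_δ(K)`. -/
structure IsTwDomain (s : AdelicAut K) (δ : GL (Fin 2) K) (Fδ : Set (G K)) : Prop where
  meas : MeasurableSet Fδ
  sub : Fδ ⊆ slab K
  strict : ∀ g ∈ slab K, ∃! γ : twStab s δ, ratG (γ : GL (Fin 2) K) * g ∈ Fδ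

/-- The summand of the twisted kernel on the diagonal: `x ↦ φ♭(x⁻¹ δ σ(x))`. -/
def twTerm (r : G K) (s : AdelicAut K) (φ : G K → ℂ) (δ : GL (Fin 2) K) (x : G K) : ℂ :=
  flat r φ (x⁻¹ * ratG δ * s.onG x)

/-- `γ ∈ GL₂(K)` is elliptic regular over the subfield `k`: its characteristic polynomial is the
image of an irreducible polynomial with coefficients in `k`. -/
def IsEllRegOver (k : Subfield K) (γ : GL (Fin 2) K) : Prop :=
  ∃ Q : Polynomial k, Irreducible Q ∧
    Q.map (algebraMap k K) = (γ : Matrix (Fin 2) (Fin 2) K).charpoly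

/-- `φ` is σ-regular: the diagonal of its twisted kernel only meets σ-conjugacy classes whose
norm is elliptic regular over the fixed field. -/
def IsTwRegular (s : AdelicAut K) (l : ℕ) (k : Subfield K) (φ : G K → ℂ) : Prop :=
  ∀ (x : G K) (δ : GL (Fin 2) K) (z : G K), IsCentralRay z →
    φ (x⁻¹ * ratG δ * s.onG x * z) ≠ 0 → IsEllRegOver k (s.normUpTo l δ)

/-! ## 7. Regular Iwahori support (the concrete source of σ-regularity) -/

/-- `w'` is the image of the place `w` under `σ`. -/
def PlaceRel (s : AdelicAut K) (w w' : HeightOneSpectrum (𝓞 K)) : Prop :=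
  w'.asIdeal = Ideal.map (NumberField.RingOfIntegers.mapRingEquiv s.σ) w.asIdeal

/-- The component of `g` at `w` lies in the Iwahori subgroup (integral, integral inverse, lower
left entry in the maximal ideal). -/
def InIwahori (w : HeightOneSpectrum (𝓞 K)) (g : G K) : Prop :=
  IsIntegralAt w g ∧ IsIntegralAt w g⁻¹ ∧ Valued.v (finComp w g 1 0) < 1

/-- The component of `g` at `w` lies in `I_w diag(ϖ^m, 1) I_w`. -/
def InIwahoriCoset (w : HeightOneSpectrum (𝓞 K)) (m : ℕ) (g : G K) : Prop :=
  ∃ (k₁ k₂ t : G K) (c : w.adicCompletion K),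
    InIwahori w k₁ ∧ InIwahori w k₂ ∧ Valued.v c = WithZero.exp (-(m : ℤ)) ∧
    finComp w t = !![c, 0; 0, 1] ∧ finComp w g = finComp w (k₁ * t * k₂)

/-- `g` and `h` have the same components at all infinite places and at all finite places
outside `O`. -/
def AgreeOutside (O : Set (HeightOneSpectrum (𝓞 K))) (g h : G K) : Prop :=
  (∀ w : InfinitePlace K, infComp w g = infComp w h) ∧
    ∀ v : HeightOneSpectrum (𝓞 K), v ∉ O → finComp v g = finComp v h

/-- The support of `φ` is regular of depth `m` along the `σ`-orbit `o 0, …, o (l-1)` (a place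
of the fixed field which splits completely): every point of the support lies in
`I diag(ϖ^m,1) I` at `o 0`, in the Iwahori subgroup at the other places of the orbit, and agrees
outside the orbit with an element of the compact set `C`. -/
def HasRegularSupport (l : ℕ) (o : ℕ → HeightOneSpectrum (𝓞 K)) (m : ℕ) (C : Set (G K))
    (φ : G K → ℂ) : Prop :=
  ∀ g : G K, φ g ≠ 0 →
    InIwahoriCoset (o 0) m g ∧ (∀ j : ℕ, 0 < j → j < l → InIwahori (o j) g) ∧
      ∃ h ∈ C, AgreeOutside {v | ∃ j < l, v = o j} g h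

/-! ## 8. THE TOWER PROPS -/

/-- **STF-σ (twisted trace identity).**  For a product of two Eisenstein-killing test
functions the diagonal coefficients of `R(φ₁ ⋆ φ₂) R(σ)` in an orthonormal basis of cusp
functions are absolutely summable, the diagonal of the twisted kernel is integrable on the
fundamental domain, and the two are equal.  (No continuous term: EK.) -/
def STFsigma (s : AdelicAut K) (𝔫 : Ideal (𝓞 K)) (τ : G K → ℂ) : Prop :=
  ∀ (μ : Measure (G K)) (F : Set (G K)) (r : G K), IsFrame μ F → IsRayGen r →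
    AutPreserves s 𝔫 μ r →
    ∀ e : ℕ → G K → ℂ, IsCuspONB 𝔫 τ r μ F e →
    ∀ φ₁ φ₂ : G K → ℂ, IsTestFn 𝔫 τ φ₁ → IsTestFn 𝔫 τ φ₂ →
      IsEK μ φ₁ → IsEK μ (adjointFn φ₁) → IsEK μ φ₂ → IsEK μ (adjointFn φ₂) →
      Summable (fun i => diagCoeff s μ F (conv μ φ₁ φ₂) (e i)) ∧
      IntegrableOn (fun x => twKer r s (conv μ φ₁ φ₂) x x) F μ ∧
      ∑' i, diagCoeff s μ F (conv μ φ₁ φ₂) (e i)
        = ∫ x in F, twKer r s (conv μ φ₁ φ₂) x x ∂μ

/-- **Unfolding of the geometric side.**  For a σ-regular test function only finitely many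
σ-conjugacy classes meet the diagonal, and the diagonal integral of the twisted kernel is the
sum over these classes of the integral of `x ↦ φ♭(x⁻¹ δ σ(x))` over a fundamental domain of the
σ-centraliser `G^σ_δ(K)` in the slab (any representative `δ`, any fundamental domain). -/
def GeomUnfold (s : AdelicAut K) (l : ℕ) (k : Subfield K) (𝔫 : Ideal (𝓞 K)) (τ : G K → ℂ) :
    Prop :=
  ∀ (μ : Measure (G K)) (F : Set (G K)) (r : G K), IsFrame μ F → IsRayGen r →
    AutPreserves s 𝔫 μ r →
    ∀ φ : G K → ℂ, IsTestFn 𝔫 τ φ → IsTwRegular s l k φ →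
      {c : TwClass s | ∃ δ : GL (Fin 2) K, Quotient.mk (twSetoid s) δ = c ∧
          ∃ x : G K, twTerm r s φ δ x ≠ 0}.Finite ∧
      ∀ (rep : TwClass s → GL (Fin 2) K) (Fc : TwClass s → Set (G K)),
        (∀ c, Quotient.mk (twSetoid s) (rep c) = c) →
        (∀ c, IsTwDomain s (rep c) (Fc c)) →
        (∀ c, IntegrableOn (twTerm r s φ (rep c)) (Fc c) μ) ∧
        ∫ x in F, twKer r s φ x x ∂μ
          = ∑ᶠ c : TwClass s, ∫ x in Fc c, twTerm r s φ (rep c) x ∂μ

/-- **Regular Iwahori support gives σ-regularity.**  (Flicker's device; product formula.)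
Steps: (a) for `g = x⁻¹ δ σ(x) z` one has `g σ(g) ⋯ σ^{l-1}(g) = x⁻¹ N(δ) x z^l`; (b) an element
of `I diag(ϖ^m,1) I`, `m ≥ 1`, has eigenvalues of valuations `0` and `m`; (c) a compact set
bounds the quotient of the eigenvalues at every place and makes it a unit at almost all places;
(d) if the characteristic polynomial of `N(δ)` were reducible over `k`, the product formula for
the quotient of its roots would fail for `m` large.  [F] §1; memo helper261 FACT 4. -/
def RegularOfIwahori (s : AdelicAut K) (l : ℕ) (k : Subfield K) : Prop :=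
  IsCyclicOfDegree s l k →
  ∀ (o : ℕ → HeightOneSpectrum (𝓞 K)) (C : Set (G K)), IsCompact C →
    (∀ j : ℕ, PlaceRel s (o j) (o (j + 1))) → (∀ j : ℕ, 0 < j → j < l → o j ≠ o 0) →
    ∃ m₀ : ℕ, ∀ m : ℕ, m₀ ≤ m → ∀ φ : G K → ℂ,
      HasRegularSupport l o m C φ → IsTwRegular s l k φ

/-- The tower Prop of T5 for the automorphism `s` of order `l` with fixed field `k`, level `𝔫`,
`K_∞`-type `τ`. -/
structure Tower (s : AdelicAut K) (l : ℕ) (k : Subfield K) (𝔫 : Ideal (𝓞 K)) (τ : G K → ℂ) :
    Prop where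
  stf : STFsigma s 𝔫 τ
  unfold : GeomUnfold s l k 𝔫 τ
  regular : RegularOfIwahori s l k

/-! ## 8a. The instances `τ = 1` and `σ = id` (the frame of T4), and the input from T2 -/

theorem isKType_triv : IsKType (trivType : G K → ℂ) :=
  ⟨fun _ _ _ => by simp [trivType], fun _ _ _ _ _ => by simp [trivType],
    fun _ => continuousOn_const⟩

theorem onG_id (g : G K) : (AdelicAut.id K).onG g = g := by
  ext i j
  rfl

theorem onGinv_id (g : G K) : (AdelicAut.id K).onGinv g = g := by
  ext i j
  rfl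

theorem onRat_id (γ : GL (Fin 2) K) : (AdelicAut.id K).onRat γ = γ := by
  ext i j
  rfl

/-- The trivial automorphism is cyclic of degree `1` with fixed field `K`. -/
theorem isCyclicOfDegree_id : IsCyclicOfDegree (AdelicAut.id K) 1 ⊤ :=
  ⟨Nat.one_pos, fun _ => rfl, fun _ => ⟨fun _ => rfl, fun _ => Subfield.mem_top _⟩,
    fun j h0 h1 => absurd h1 (by omega)⟩

/-- The trivial automorphism preserves every frame. -/
theorem autPreserves_id (𝔫 : Ideal (𝓞 K)) (μ : Measure (G K)) (r : G K) :
    AutPreserves (AdelicAut.id K) 𝔫 μ r where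
  left_inverse := fun g => by rw [onG_id, onGinv_id]
  right_inverse := fun g => by rw [onGinv_id, onG_id]
  rat := fun γ => by rw [onG_id, onRat_id]
  cont := by
    have h : ((AdelicAut.id K).onG : G K → G K) = fun g => g := funext onG_id
    rw [h]
    exact continuous_id
  measure := fun A _ => by
    have h : ((AdelicAut.id K).onG : G K → G K) = fun g => g := funext onG_id
    rw [h]
    rfl
  ray := onG_id r
  slab := fun g => by rw [onG_id]
  level := fun u => by rw [onG_id]
  arch := fun k => by rw [onG_id]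

/-- **Existence of the orthonormal sequence (interface Prop, not a leaf of T5; chief R3: leaf
T7.C0).**  For every frame there is an orthonormal sequence (zero vectors allowed) of cusp
functions of level `𝔫` and type `τ`, invariant under the ray generator `r`, which is complete
(Parseval for every such cusp function).  ELEMENTARY: `L²(F)` is separable, Gram--Schmidt; no
spectral theory, no eigen-property.  The class is larger than the class of `T2.IsCuspFn` (which
is invariant under the positive scalars at EVERY infinite place); a sequence adapted to the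
projector onto that class is obtained from `T2.CuspSpec` and Gram--Schmidt on the complement. -/
def CuspONBExistsC (𝔫 : Ideal (𝓞 K)) (τ : G K → ℂ) : Prop :=
  ∀ (μ : Measure (G K)) (F : Set (G K)) (r : G K), IsFrame μ F → IsRayGen r →
    ∃ e : ℕ → G K → ℂ, IsCuspONB 𝔫 τ r μ F e

/-! ## 9. SUB-LEAVES

Every leaf is a closed Prop, TRUE as stated (architect's claim; referees: helper22 / helper11).
A leaf may be delivered conditionally on Props of T1 / T2 / T3 (`theorem leafX_of : T1.… → LeafX`).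
References: [GJ] Gelbart–Jacquet, Forms of GL(2) from the analytic point of view, §§1–2, 6;
[Go] Godement, Notes on Jacquet–Langlands theory, §3; [L] Langlands, Base change for GL(2),
§4, §10; [F] Flicker, Regular trace formula and base change lifting, §1; [LV]
Lindenstrauss–Venkatesh, GAFA 17 (2007), §§3–4; memo origin/helper261 coord/LT-A3-EK-helper261.md;
memo origin/helper14 coord/LT-T3-helper14.md. -/

/-- **T5.01 (abstract; measure theory only).**  On a finite measure space: if `K₁, K₂` are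
square-integrable kernels, `e` is an orthogonal sequence of bounded continuous functions each of
which has norm `1` or vanishes identically, and the operator with kernel `K₁` maps `L²` into
functions which satisfy Parseval's identity for `e`, then the diagonal coefficients of the
composite operator in `e` are absolutely summable with sum `∬ K₁(x,z) K₂(z,x)`.  (Trace of a
product of two Hilbert–Schmidt operators, computed in a basis of a subspace containing the
range; the zero vectors contribute nothing.)  [Go] §3, [GJ] §1. -/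
def LeafAbstractTrace (K : Type) [Field K] [NumberField K] : Prop :=
  ∀ (μ : Measure (G K)) (F : Set (G K)), μ F < ⊤ →
    ∀ (K₁ K₂ : G K → G K → ℂ) (e : ℕ → G K → ℂ),
      (∀ i j, i ≠ j → innerD μ F (e i) (e j) = 0) →
      (∀ i, innerD μ F (e i) (e i) = 1 ∨ ∀ g : G K, e i g = 0) →
      (∀ i, Continuous (e i) ∧ ∃ C : ℝ, ∀ g : G K, ‖e i g‖ ≤ C) →
      MemLp (fun p : G K × G K => K₁ p.1 p.2) 2 ((μ.restrict F).prod (μ.restrict F)) →
      MemLp (fun p : G K × G K => K₂ p.1 p.2) 2 ((μ.restrict F).prod (μ.restrict F)) →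
      (∀ f : G K → ℂ, MemLp f 2 (μ.restrict F) →
        HasSum (fun i => ‖innerD μ F (fun x => ∫ z in F, K₁ x z * f z ∂μ) (e i)‖ ^ 2)
          (innerD μ F (fun x => ∫ z in F, K₁ x z * f z ∂μ)
            (fun x => ∫ z in F, K₁ x z * f z ∂μ)).re) →
      Summable (fun i => innerD μ F
          (fun x => ∫ z in F, K₁ x z * (∫ y in F, K₂ z y * e i y ∂μ) ∂μ) (e i)) ∧
        IntegrableOn (fun x => ∫ z in F, K₁ x z * K₂ z x ∂μ) F μ ∧
        ∑' i, innerD μ F
            (fun x => ∫ z in F, K₁ x z * (∫ y in F, K₂ z y * e i y ∂μ) ∂μ) (e i)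
          = ∫ x in F, (∫ z in F, K₁ x z * K₂ z x ∂μ) ∂μ

/-- The statement of T5.01 in Spec v3 (strictly orthonormal sequence; proved by helper90,
helper632, helper752, helper572).  NOT used by the tower; kept for the owners of T5.01. -/
def LeafAbstractTraceStrict (K : Type) [Field K] [NumberField K] : Prop :=
  ∀ (μ : Measure (G K)) (F : Set (G K)), μ F < ⊤ →
    ∀ (K₁ K₂ : G K → G K → ℂ) (e : ℕ → G K → ℂ),
      (∀ i j, innerD μ F (e i) (e j) = if i = j then 1 else 0) →
      (∀ i, Continuous (e i) ∧ ∃ C : ℝ, ∀ g : G K, ‖e i g‖ ≤ C) →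
      MemLp (fun p : G K × G K => K₁ p.1 p.2) 2 ((μ.restrict F).prod (μ.restrict F)) →
      MemLp (fun p : G K × G K => K₂ p.1 p.2) 2 ((μ.restrict F).prod (μ.restrict F)) →
      (∀ f : G K → ℂ, MemLp f 2 (μ.restrict F) →
        HasSum (fun i => ‖innerD μ F (fun x => ∫ z in F, K₁ x z * f z ∂μ) (e i)‖ ^ 2)
          (innerD μ F (fun x => ∫ z in F, K₁ x z * f z ∂μ)
            (fun x => ∫ z in F, K₁ x z * f z ∂μ)).re) →
      Summable (fun i => innerD μ F
          (fun x => ∫ z in F, K₁ x z * (∫ y in F, K₂ z y * e i y ∂μ) ∂μ) (e i)) ∧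
        IntegrableOn (fun x => ∫ z in F, K₁ x z * K₂ z x ∂μ) F μ ∧
        ∑' i, innerD μ F
            (fun x => ∫ z in F, K₁ x z * (∫ y in F, K₂ z y * e i y ∂μ) ∂μ) (e i)
          = ∫ x in F, (∫ z in F, K₁ x z * K₂ z x ∂μ) ∂μ

/-- **T5.02 (Hilbert–Schmidt, untwisted kernel) = T3.19 `EKKernel` in the frame of T5.**  For an
Eisenstein-killing test function (smooth at infinity) whose adjoint is Eisenstein-killing, the
kernel
`∑_γ φ♭(x⁻¹ γ y)` is square-integrable on `F × F`.  Inputs: reduction theory (`T1.ReductionC`,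
`T1.SiegelSepC`, `T1.SiegelCompactC`, `T1.SiegelVolC`), Poisson summation over `N(K)`
(`T3.PoissonC`); the term `ξ = 0` vanishes by `IsEK` ([LV] §3; memo helper261 §5 (a); [Go] §3). -/
def LeafHS0 (𝔫 : Ideal (𝓞 K)) (τ : G K → ℂ) : Prop :=
  ∀ (μ : Measure (G K)) (F : Set (G K)) (r : G K), IsFrame μ F → IsRayGen r →
    ∀ φ : G K → ℂ, IsTestFn 𝔫 τ φ → IsEK μ φ → IsEK μ (adjointFn φ) →
      MemLp (fun p : G K × G K => ker0 r φ p.1 p.2) 2 ((μ.restrict F).prod (μ.restrict F))

/-- **T5.03 (Hilbert–Schmidt, twisted kernel).**  The same for `∑_δ φ♭(x⁻¹ δ σ(y))`; follows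
from T5.02 because `σ` preserves the measure and maps strict fundamental domains in the slab to
strict fundamental domains in the slab. -/
def LeafHS (s : AdelicAut K) (𝔫 : Ideal (𝓞 K)) (τ : G K → ℂ) : Prop :=
  ∀ (μ : Measure (G K)) (F : Set (G K)) (r : G K), IsFrame μ F → IsRayGen r →
    AutPreserves s 𝔫 μ r →
    ∀ φ : G K → ℂ, IsTestFn 𝔫 τ φ → IsEK μ φ → IsEK μ (adjointFn φ) →
      MemLp (fun p : G K × G K => twKer r s φ p.1 p.2) 2 ((μ.restrict F).prod (μ.restrict F))

/-- **T5.04 (range in the cusp functions).**  For an Eisenstein-killing test function `φ` and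
`f ∈ L²(F)`, the function `x ↦ ∫_F K_φ(x,z) f(z) dz` is a cusp function (continuous, bounded,
automorphic, vanishing constant term).  `T3.EKCuspC` + the estimate of T5.02. -/
def LeafRange (𝔫 : Ideal (𝓞 K)) (τ : G K → ℂ) : Prop :=
  ∀ (μ : Measure (G K)) (F : Set (G K)) (r : G K), IsFrame μ F → IsRayGen r →
    ∀ φ : G K → ℂ, IsTestFn 𝔫 τ φ → IsEK μ φ → IsEK μ (adjointFn φ) →
      ∀ f : G K → ℂ, MemLp f 2 (μ.restrict F) →
        IsCuspFn 𝔫 τ r (fun x => ∫ z in F, ker0 r φ x z * f z ∂μ)

/-- **T5.05 (the operator is the kernel operator).**  For test functions `φ₁, φ₂` and a cusp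
function `e`: `⟨R(φ₁ ⋆ φ₂) R(σ) e, e⟩ = ⟨K_{φ₁} K^σ_{φ₂} e, e⟩` (Fubini; unfolding over `GL₂(K)`
and over the discrete ray: `GL₂(𝔸_K) = ⨆_m slab · rᵐ`, `slab = ⨆_γ γ F`).  [L] §10, [GJ] §1. -/
def LeafCoeff (s : AdelicAut K) (𝔫 : Ideal (𝓞 K)) (τ : G K → ℂ) : Prop :=
  ∀ (μ : Measure (G K)) (F : Set (G K)) (r : G K), IsFrame μ F → IsRayGen r →
    AutPreserves s 𝔫 μ r →
    ∀ φ₁ φ₂ : G K → ℂ, IsTestFn 𝔫 τ φ₁ → IsTestFn 𝔫 τ φ₂ →
      ∀ e : G K → ℂ, IsCuspFn 𝔫 τ r e →
        diagCoeff s μ F (conv μ φ₁ φ₂) e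
          = innerD μ F
              (fun x => ∫ z in F, ker0 r φ₁ x z * (∫ y in F, twKer r s φ₂ z y * e y ∂μ) ∂μ) e

/-- **T5.06 (composition of kernels on the diagonal).**
`∑_δ (φ₁ ⋆ φ₂)♭(x⁻¹ δ σ(x)) = ∫_F K_{φ₁}(x,z) K^σ_{φ₂}(z,x) dz` for every `x`. -/
def LeafDiag (s : AdelicAut K) (𝔫 : Ideal (𝓞 K)) (τ : G K → ℂ) : Prop :=
  ∀ (μ : Measure (G K)) (F : Set (G K)) (r : G K), IsFrame μ F → IsRayGen r →
    AutPreserves s 𝔫 μ r →
    ∀ φ₁ φ₂ : G K → ℂ, IsTestFn 𝔫 τ φ₁ → IsTestFn 𝔫 τ φ₂ →
      ∀ x : G K,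
        twKer r s (conv μ φ₁ φ₂) x x = ∫ z in F, ker0 r φ₁ x z * twKer r s φ₂ z x ∂μ

/-- **T5.07 (finiteness and integrability for σ-regular test functions).**  Only finitely many
σ-conjugacy classes meet the diagonal, and `x ↦ φ♭(x⁻¹ δ σ(x))` is integrable on every strict
fundamental domain of the σ-centraliser in the slab (the σ-centraliser of `δ` with elliptic
regular norm `γ` is the multiplicative group of the quadratic extension `L = k[γ]` of the fixed
field, `L^× \ 𝔸_L^{×,1}` is compact (`T1.FujisakiC` for `L`, cf. `T1.EllipticCompactC`), and the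
σ-conjugacy class of `δ` is closed; the class of `δ` is determined by the class of its norm:
`T6.NormInjC`).  [L] §4 Lemma 4.2, §10; [F] §1. -/
def LeafTwFinite (s : AdelicAut K) (l : ℕ) (k : Subfield K) (𝔫 : Ideal (𝓞 K)) (τ : G K → ℂ) :
    Prop :=
  IsCyclicOfDegree s l k →
  ∀ (μ : Measure (G K)) (F : Set (G K)) (r : G K), IsFrame μ F → IsRayGen r →
    AutPreserves s 𝔫 μ r →
    ∀ φ : G K → ℂ, IsTestFn 𝔫 τ φ → IsTwRegular s l k φ →
      {c : TwClass s | ∃ δ : GL (Fin 2) K, Quotient.mk (twSetoid s) δ = c ∧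
          ∃ x : G K, twTerm r s φ δ x ≠ 0}.Finite ∧
      ∀ (δ : GL (Fin 2) K) (Fδ : Set (G K)), IsTwDomain s δ Fδ →
        IntegrableOn (twTerm r s φ δ) Fδ μ

/-- **T5.08 (unfolding).**  Given the finiteness and integrability of T5.07, the diagonal
integral of the twisted kernel over `F` is the finite sum over the σ-conjugacy classes of the
integrals over strict fundamental domains of the σ-centralisers.  (Unfolding for the countable
group `GL₂(K)` acting on itself by σ-conjugation.) -/
def LeafTwUnfold (s : AdelicAut K) (𝔫 : Ideal (𝓞 K)) (τ : G K → ℂ) : Prop :=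
  ∀ (μ : Measure (G K)) (F : Set (G K)) (r : G K), IsFrame μ F → IsRayGen r →
    AutPreserves s 𝔫 μ r →
    ∀ φ : G K → ℂ, IsTestFn 𝔫 τ φ →
      {c : TwClass s | ∃ δ : GL (Fin 2) K, Quotient.mk (twSetoid s) δ = c ∧
          ∃ x : G K, twTerm r s φ δ x ≠ 0}.Finite →
      (∀ (δ : GL (Fin 2) K) (Fδ : Set (G K)), IsTwDomain s δ Fδ →
        IntegrableOn (twTerm r s φ δ) Fδ μ) →
      ∀ (rep : TwClass s → GL (Fin 2) K) (Fc : TwClass s → Set (G K)),
        (∀ c, Quotient.mk (twSetoid s) (rep c) = c) →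
        (∀ c, IsTwDomain s (rep c) (Fc c)) →
        ∫ x in F, twKer r s φ x x ∂μ
          = ∑ᶠ c : TwClass s, ∫ x in Fc c, twTerm r s φ (rep c) x ∂μ

/-! ## 10. THE TOPS (proved) -/

/-- STF-σ from its leaves. -/
theorem top_STF (s : AdelicAut K) (𝔫 : Ideal (𝓞 K)) (τ : G K → ℂ)
    (hA : LeafAbstractTrace K) (hHS0 : LeafHS0 𝔫 τ) (hHS : LeafHS s 𝔫 τ) (hR : LeafRange 𝔫 τ)
    (hC : LeafCoeff s 𝔫 τ) (hD : LeafDiag s 𝔫 τ) : STFsigma s 𝔫 τ := by
  intro μ F r hF hr hP e he φ₁ φ₂ t₁ t₂ ek₁ ek₁' ek₂ ek₂'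
  have h := hA μ F hF.finite (ker0 r φ₁) (twKer r s φ₂) e he.orth he.norm
    (fun i => ⟨(he.cusp i).cont, (he.cusp i).bdd⟩)
    (hHS0 μ F r hF hr φ₁ t₁ ek₁ ek₁') (hHS μ F r hF hr hP φ₂ t₂ ek₂ ek₂')
    (fun f hf => he.complete _ (hR μ F r hF hr φ₁ t₁ ek₁ ek₁' f hf))
  have e1 : (fun i => diagCoeff s μ F (conv μ φ₁ φ₂) (e i))
      = fun i => innerD μ F
          (fun x => ∫ z in F, ker0 r φ₁ x z * (∫ y in F, twKer r s φ₂ z y * e i y ∂μ) ∂μ)
          (e i) :=
    funext fun i => hC μ F r hF hr hP φ₁ φ₂ t₁ t₂ (e i) (he.cusp i)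
  have e2 : (fun x => twKer r s (conv μ φ₁ φ₂) x x)
      = fun x => ∫ z in F, ker0 r φ₁ x z * twKer r s φ₂ z x ∂μ :=
    funext fun x => hD μ F r hF hr hP φ₁ φ₂ t₁ t₂ x
  rw [e1, e2]
  exact h

/-- The unfolding from its leaves. -/
theorem top_Unfold (s : AdelicAut K) (l : ℕ) (k : Subfield K) (𝔫 : Ideal (𝓞 K)) (τ : G K → ℂ)
    (hcyc : IsCyclicOfDegree s l k)
    (hfin : LeafTwFinite s l k 𝔫 τ) (hunf : LeafTwUnfold s 𝔫 τ) : GeomUnfold s l k 𝔫 τ := by
  intro μ F r hF hr hP φ t hreg
  obtain ⟨hf, hint⟩ := hfin hcyc μ F r hF hr hP φ t hreg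
  exact ⟨hf, fun rep Fc hrep hFc =>
    ⟨fun c => hint (rep c) (Fc c) (hFc c), hunf μ F r hF hr hP φ t hf hint rep Fc hrep hFc⟩⟩

/-- **THE TOWER from its leaves.** -/
theorem top (s : AdelicAut K) (l : ℕ) (k : Subfield K) (𝔫 : Ideal (𝓞 K)) (τ : G K → ℂ)
    (hcyc : IsCyclicOfDegree s l k)
    (hA : LeafAbstractTrace K) (hHS0 : LeafHS0 𝔫 τ) (hHS : LeafHS s 𝔫 τ) (hR : LeafRange 𝔫 τ)
    (hC : LeafCoeff s 𝔫 τ) (hD : LeafDiag s 𝔫 τ)
    (hfin : LeafTwFinite s l k 𝔫 τ) (hunf : LeafTwUnfold s 𝔫 τ)
    (hreg : RegularOfIwahori s l k) : Tower s l k 𝔫 τ :=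
  ⟨top_STF s 𝔫 τ hA hHS0 hHS hR hC hD, top_Unfold s l k 𝔫 τ hcyc hfin hunf, hreg⟩

end Fermat.Agent.LT.T5

end
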