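import Mathlib
import Fermat.Agent.LT.H556.A0
import Fermat.Agent.LT.T5.Spec

/-!
# Row LT, tower T5 (architect helper32): regular Iwahori support UP TO A SCALAR at the regular
# place -- ADDITIVE to `Spec.lean` v4 (FROZEN, sha256 f2d97e70548fcdd7)

OFF-MAIN.  Request of the chief of T1-T7 (helper797, note of 14:40Z, `T7/Reg.lean`): the regular
test functions of the descent carry a CENTRAL SHIFT at the regular place `u = o 0`
(support `ϖ_u^k · I diag(ϖ^m, 1) I`, all `k ∈ ℤ`), needed to separate the central character at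
`u`.  σ-regularity for them is the same product-formula argument: the invariant `tr² / det` does
not see scalars.

New names only; nothing of `Spec.lean` changes.

* `InIwahoriCosetZ w m g`: the component of `g` at `w` is `k₁ · diag(c, d) · k₂` with `k₁, k₂` in
  the Iwahori subgroup, `d ≠ 0` and `|c| = q^{-m} |d|`, i.e. it lies in
  `K_w^× · I_w diag(ϖ^m, 1) I_w` (ANY scalar of `K_w^×`, in particular `ϖ^k`, `k ∈ ℤ`).
  A purely local condition on the matrix `finComp w g`.
* `HasRegularSupportZ l o m C φ`: `HasRegularSupport` with `InIwahoriCosetZ` at `o 0`.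
* `RegularOfIwahoriZ s l k` (LEAF T5.09Z): `RegularOfIwahori` for `HasRegularSupportZ`.

PROVED here: `inIwahoriCosetZ_of_coset`, `inIwahoriCosetZ_of_smul` (a scalar multiple at `w` of an
element of the double coset), `hasRegularSupportZ_of_regular`, `regularOfIwahori_of_Z`
(the leaf T5.09Z implies T5.09).
-/

set_option autoImplicit false

open IsDedekindDomain NumberField

noncomputable section

namespace Fermat.Agent.LT.T5

open Fermat.Agent.LT.H556.A0

variable {K : Type} [Field K] [NumberField K]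

/-- The component of `g` at `w` lies in `K_w^× · I_w diag(ϖ^m, 1) I_w`: it is
`k₁ · diag(c, d) · k₂` with `k₁, k₂` in the Iwahori subgroup, `d ≠ 0`, `|c| = q^{-m} |d|`. -/
def InIwahoriCosetZ (w : HeightOneSpectrum (𝓞 K)) (m : ℕ) (g : G K) : Prop :=
  ∃ (k₁ k₂ : G K) (c d : w.adicCompletion K),
    InIwahori w k₁ ∧ InIwahori w k₂ ∧ d ≠ 0 ∧
    Valued.v c = WithZero.exp (-(m : ℤ)) * Valued.v d ∧
    finComp w g = finComp w k₁ * !![c, 0; 0, d] * finComp w k₂

/-- The support of `φ` is regular of depth `m` along the `σ`-orbit `o 0, …, o (l-1)` UP TO A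
SCALAR AT `o 0`: every point of the support lies in `K_w^× · I diag(ϖ^m,1) I` at `w = o 0`, in the
Iwahori subgroup at the other places of the orbit, and agrees outside the orbit with an element
of the compact set `C`. -/
def HasRegularSupportZ (l : ℕ) (o : ℕ → HeightOneSpectrum (𝓞 K)) (m : ℕ) (C : Set (G K))
    (φ : G K → ℂ) : Prop :=
  ∀ g : G K, φ g ≠ 0 →
    InIwahoriCosetZ (o 0) m g ∧ (∀ j : ℕ, 0 < j → j < l → InIwahori (o j) g) ∧
      ∃ h ∈ C, AgreeOutside {v | ∃ j < l, v = o j} g h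

/-- **LEAF T5.09Z: regular Iwahori support up to a scalar at the regular place gives
σ-regularity.**  Same proof as T5.09 (`RegularOfIwahori`): the norm `N(g)` has at `o 0` the
component `d · (k₁ diag(c/d, 1) k₂')` with `k₂'` Iwahori, and `tr² / det` does not see `d`. -/
def RegularOfIwahoriZ (s : AdelicAut K) (l : ℕ) (k : Subfield K) : Prop :=
  IsCyclicOfDegree s l k →
  ∀ (o : ℕ → HeightOneSpectrum (𝓞 K)) (C : Set (G K)), IsCompact C →
    (∀ j : ℕ, PlaceRel s (o j) (o (j + 1))) → (∀ j : ℕ, 0 < j → j < l → o j ≠ o 0) →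
    ∃ m₀ : ℕ, ∀ m : ℕ, m₀ ≤ m → ∀ φ : G K → ℂ,
      HasRegularSupportZ l o m C φ → IsTwRegular s l k φ

/-! ## Proved: the relation with `Spec.lean` -/

theorem finComp_mulZ (v : HeightOneSpectrum (𝓞 K)) (g h : G K) :
    finComp v (g * h) = finComp v g * finComp v h := by
  rw [finComp_eq_map, finComp_eq_map, finComp_eq_map, Units.val_mul, Matrix.map_mul]

/-- An element of the double coset is an element of the double coset up to a scalar. -/
theorem inIwahoriCosetZ_of_coset {w : HeightOneSpectrum (𝓞 K)} {m : ℕ} {g : G K}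
    (h : InIwahoriCoset w m g) : InIwahoriCosetZ w m g := by
  obtain ⟨k₁, k₂, t, c, hk₁, hk₂, hc, ht, hg⟩ := h
  refine ⟨k₁, k₂, c, 1, hk₁, hk₂, one_ne_zero, ?_, ?_⟩
  · rw [hc, map_one, mul_one]
  · rw [hg, finComp_mulZ, finComp_mulZ, ht]

/-- A scalar multiple at `w` of an element of the double coset (e.g. the central shift by
`ϖ_w^k`, `k ∈ ℤ`). -/
theorem inIwahoriCosetZ_of_smul {w : HeightOneSpectrum (𝓞 K)} {m : ℕ} {g g' : G K}
    {a : w.adicCompletion K} (ha : a ≠ 0) (hg' : InIwahoriCoset w m g')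
    (h : finComp w g = a • finComp w g') : InIwahoriCosetZ w m g := by
  obtain ⟨k₁, k₂, t, c, hk₁, hk₂, hc, ht, hg⟩ := hg'
  refine ⟨k₁, k₂, a * c, a, hk₁, hk₂, ha, ?_, ?_⟩
  · rw [map_mul, hc, mul_comm]
  · rw [h, hg, finComp_mulZ, finComp_mulZ, ht, ← Matrix.smul_mul, ← Matrix.mul_smul]
    congr 2
    ext i j
    fin_cases i <;> fin_cases j <;> simp

theorem hasRegularSupportZ_of_regular {l : ℕ} {o : ℕ → HeightOneSpectrum (𝓞 K)} {m : ℕ}
    {C : Set (G K)} {φ : G K → ℂ} (h : HasRegularSupport l o m C φ) :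
    HasRegularSupportZ l o m C φ := fun g hg =>
  ⟨inIwahoriCosetZ_of_coset (h g hg).1, (h g hg).2⟩

/-- T5.09Z implies T5.09. -/
theorem regularOfIwahori_of_Z {s : AdelicAut K} {l : ℕ} {k : Subfield K}
    (h : RegularOfIwahoriZ s l k) : RegularOfIwahori s l k := by
  intro hc o C hC ho hne
  obtain ⟨m₀, hm₀⟩ := h hc o C hC ho hne
  exact ⟨m₀, fun m hm φ hφ => hm₀ m hm φ (hasRegularSupportZ_of_regular hφ)⟩

end Fermat.Agent.LT.T5

end
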