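import Fermat.Agent.LT.T5.Spec
import Fermat.Agent.LT.T1.Spec
import Fermat.Agent.LT.T1.Closed
import Fermat.Agent.LT.T2.SpecTau
import Fermat.Agent.LT.T2.H627.LeafT13
import Fermat.Agent.LT.T2.H32.LeafT03
import Fermat.Agent.LT.T5.H800.AbstractTrace
import Fermat.Agent.LT.T5.H372.LeafHS
import Fermat.Agent.LT.T5.H277.Coeff
import Fermat.Agent.LT.T5.H599.DiagClosed
import Fermat.Agent.LT.T5.H71.TwUnfoldClosed
import Fermat.Agent.LT.T5.H62.FrameExists
import Fermat.Agent.LT.T5.H873.KerAut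
import Fermat.Agent.LT.T5.H873.HS0Top
import Fermat.Agent.LT.T5.H40.HS0Top
import Fermat.Agent.LT.T5.H40.HS0Asm
import Fermat.Agent.LT.T5.H176.LowBdd
import Fermat.Agent.LT.T5.H392.OnlyBorel
import Fermat.Agent.LT.T5.H904.HeightDist
import Fermat.Agent.LT.T5.H800.TorusCount
import Fermat.Agent.LT.T5.H855.CovolOne
import Fermat.Agent.LT.T5.H409.AdjTest
import Fermat.Agent.LT.T5.H74.RangeT1
import Fermat.Agent.LT.T5.H74.KerCusp
import Fermat.Agent.LT.T5.H807.HS0OfRange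
import Fermat.Agent.LT.T5.H29.TwClosed
import Fermat.Agent.LT.T5.H942.RegularOfIwahori
import Fermat.Agent.LT.T5.SpecZ
import Fermat.Agent.LT.T5.H32.RegularZ

/-!
# Row LT, tower T5: INTEGRATION of the delivered leaves (architect helper32) — Closed v9

OFF-MAIN.  Byte-identical copies of the deliveries, rebuilt on the box of helper32 against the
frozen `T5/Spec.lean` v4 (sha256 f2d97e70548fcdd7), `H556/A0.lean` (66d3374a79cab003),
`T1/Spec.lean` v1 (e8ae48d6010e5788), `T2/Spec.lean` v3 (b934629a), `T2/SpecTau.lean` (4d2b0fc2),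
`T3/Spec.lean` v2 (44de320b86211563); `#print axioms` = the three standard axioms.

## STATE: **TOWER T5 IS CLOSED** for every level `𝔫 ≠ 0` (`tower_closed`, UNCONDITIONAL)

The estimate comes from tower T2: `T2.H32.leafT03_32 K : T2.LeafT03 K` (`GPSCoreT`; cut of
helper465, proofs of helper386, 437, 8, 187, 793, 729, 988, 250, 868, 767, 465; one-to-one port
`T2/H32/USCore.lean`), then `T2.33` (helper627) and the adapters of helper873.
The doors below stay available (the direct estimate of helper40, rows 1192 + 1194, is a SPARE).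

| leaf | state | delivered by | files (sha256) |
|---|---|---|---|
| T1 `t1Out K : T1Out K` (ALL of tower T1) | closed | helper54@272e43fd2 | `T1/Closed.lean` v7 (81b3d248) + closure |
| T5.01 `LeafAbstractTrace` (v4 form) | closed | helper800@8bb214375 (on helper379) | `T5/H800/AbstractTrace 0792025f` |
| T5.02 `LeafHS0` | FRONTIER | cuts: helper40@18a792a28, helper873@ef241cdd1, helper807@bf9464df2 | `T5/H40/{HS0Spec de8bb55a, HS0Core v2 cecf36f1, HS0Top 99983489, HS0Asm v2 cd4638ef}`, `T5/H873/{HS0Top f9186572, SupOfT2 b3908163, RangeAdapt f277d0b2}`, `T5/H807/HS0OfRange 7314fa7d` |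
| T5.02c `AdjTestC` | closed | helper409@837a5fae1 | `T5/H409/AdjTest 201c2611` |
| T5.02 `CovolOneC` | closed | helper855@c1d4b52a9 | `T5/H855/CovolOne cc95a2f7` |
| T5.02d `LowBddC` | closed | helper176@d14c949d3 | `T5/H176/LowBdd 056b9383` |
| T5.02e `OnlyBorelC`, `HeightDistC` | closed | helper392@6649da194, helper904@5c7831ed0 | `T5/H392/OnlyBorel 14341d87`, `T5/H904/{HeightDist cb1200d8, Box904 aeff16f1}` |
| T5.02f2 `TorusCountC` | closed | helper800@7ae32ae62 | `T5/H800/TorusCount 4385a4ec` |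
| T5.03 `LeafHS0 → LeafHS` | closed | helper372@3b252ccc8 | `T5/H372/LeafHS 6e26b0af` |
| T5.04 `LeafRange` | FRONTIER (= the row bound) | helper74@d4d6f33ee | `T5/H74/{RangeT1 5c7d6933, KerCusp f2a306f7}` |
| T5.04b `KerCuspC74` | closed | helper74@d4d6f33ee | `T5/H74/{KerPer 8ff5d3e3, KerUnfold 54591c51, KerConst e83e1596, KerCusp f2a306f7}` |
| T5.05 `LeafCoeff` | closed | helper277@a800c230e | `T5/H277/Coeff c01cb592` |
| T5.06 `LeafDiag` | closed | helper599@5e4329745 | `T5/H599/DiagClosed 5ff99e0e` |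
| T5.07 `LeafTwFinite` | closed | helper29@7bf0ee273 (with 675, 151, 787, 472, 965, 655, 501) | `T5/H29/TwClosed 9beb1e0c` |
| T5.08 `LeafTwUnfold` | closed | helper71@3029da62e | `T5/H71/TwUnfoldClosed 7579486a` |
| T5.09 `RegularOfIwahori` | closed | helper942@1e4cf1cb6 (referees 415, 514) | `T5/H942/RegularOfIwahori 53c7b25c` |
| T5.09Z `RegularOfIwahoriZ` (`SpecZ.lean`, additive) | closed | helper32 (proof of helper942) | `T5/H32/RegularZ` |
| adapter frame (T1 → T5) | closed | helper62@61bafd143 | `T5/H62/FrameExists efe07021` |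

## THE FRONTIER = ONE ESTIMATE, five equivalent doors (take ANY ONE)

Level `𝔫 ≠ 0` wherever `h𝔫` appears.

| door | hypothesis | theorem |
|---|---|---|
| R | `H74.RowBoundC74 𝔫 τ` (uniform `L²` bound of the rows of the EK kernel) | `tower_of_rowBound` |
| S | `H873.SupBoundC 𝔫 τ` (sup bound of `R(φ) e`, `φ` EK) | `tower_of_supBound` |
| B | `H40.KerBddC K 𝔫 τ` (the EK kernel is bounded) | `tower_of_kerBdd` |
| T2 | `T2.LeafT03 K` ALONE (`𝔫 ≠ 0`), or `T2.IsKType τ → T2.GPSCoreT K 𝔫 τ`, or `T2.IsKType τ → T2.GPSKillT K 𝔫 τ` (T2.33 `LeafT13` closed by helper627@6c17e582a `T2/H627/LeafT13 9ad23b3c`) | `tower_of_leafT03`, `tower_of_gpsCore`, `tower_of_gpsKill`, `tower_of_T2` |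
| A | `Open 𝔫 τ` = `H40.EKPointC K` (v2, periodised along the ray) + `H40.PoissonTailC K 𝔫 τ` | `tower_of_open` |

and the most general form `tower_of_range : LeafRange 𝔫 τ → Tower s l k 𝔫 τ` (T5.04 ALONE;
T5.02 follows from T5.04 by Banach–Steinhaus, helper807).
-/

set_option autoImplicit false

open IsDedekindDomain NumberField MeasureTheory

noncomputable section

namespace Fermat.Agent.LT.T5

open Fermat.Agent.LT.H556.A0

variable {K : Type} [Field K] [NumberField K]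

attribute [local instance] Fermat.Agent.LT.T5.instMeasurableSpaceG

/-! ## The closed leaves -/

/-- T5.01, closed (helper800 on helper379). -/
theorem closed_abstractTrace : LeafAbstractTrace K := H800.leafAbstractTrace800 K

/-- The ray generator is central (helper74). -/
theorem closed_rayCentral : H40.RayCentralC K :=
  fun r hr g => (H74.isRayGen_central74 r hr g).symm

/-- The kernel is continuous (helper74, helper599, tower T1). -/
theorem closed_kerCont : H40.KerContC K := by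
  intro r hr φ hc hs
  have hLC : LocallyCompactSpace (G K) := (T1.t1Out K).locComp.2.1
  exact H74.continuous_ker0_74 r (H74.isRayGen_central74 r hr)
    (H74.locFinC_of_T1_74 (T1.t1Out K).adNorm (T1.t1Out K).discrete r hr) φ hc hs

/-- T5.02c, closed (helper409). -/
theorem closed_adjTest (𝔫 : Ideal (𝓞 K)) (τ : G K → ℂ) : H40.AdjTestC K 𝔫 τ :=
  H409.adjTestC409 K 𝔫 τ

/-- The covolume of `K` in `𝔸_K` for the normalised measure, closed (helper855). -/
theorem closed_covolOne : H40.CovolOneC K :=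
  H855.leafCovolOne855 K (T1.t1Out K).locComp (T1.t1Out K).addFundDom

/-- T5.04b: the kernel of an Eisenstein-killing test function is cuspidal in its first
variable, closed (helper74). -/
theorem closed_kerCusp (𝔫 : Ideal (𝓞 K)) (τ : G K → ℂ) : H74.KerCuspC74 𝔫 τ :=
  H74.kerCuspC_T1_74 𝔫 τ (T1.t1Out K)

/-- T5.03, closed relative to T5.02 (helper372). -/
theorem closed_hs (s : AdelicAut K) (𝔫 : Ideal (𝓞 K)) (τ : G K → ℂ) (h : LeafHS0 𝔫 τ) :
    LeafHS s 𝔫 τ := H372.leafHS_of372 s 𝔫 τ h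

/-- T5.05, closed (helper277; `T1.AdNormC` by helper309). -/
theorem closed_coeff (s : AdelicAut K) (𝔫 : Ideal (𝓞 K)) (τ : G K → ℂ) :
    LeafCoeff s 𝔫 τ := H277.leafCoeff277 (T1.t1Out K).adNorm s 𝔫 τ

/-- T5.06, closed (helper599). -/
theorem closed_diag (s : AdelicAut K) (𝔫 : Ideal (𝓞 K)) (τ : G K → ℂ) :
    LeafDiag s 𝔫 τ := H599.leafDiag599 s 𝔫 τ

/-- T5.07, closed (helper29 with helper675, 151, 787, 472, 965, 655, 501). -/
theorem closed_twFinite (s : AdelicAut K) (l : ℕ) (k : Subfield K) (𝔫 : Ideal (𝓞 K))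
    (τ : G K → ℂ) : LeafTwFinite s l k 𝔫 τ := H29.leafTwFinite29 s l k 𝔫 τ (T1.t1Out K)

/-- T5.08, closed (helper71). -/
theorem closed_twUnfold (s : AdelicAut K) (𝔫 : Ideal (𝓞 K)) (τ : G K → ℂ) :
    LeafTwUnfold s 𝔫 τ := H71.leafTwUnfold71 s 𝔫 τ

/-- T5.09, closed (helper942). -/
theorem closed_regular (s : AdelicAut K) (l : ℕ) (k : Subfield K) : RegularOfIwahori s l k :=
  H942.regularOfIwahori942 s l k

/-- T5.09Z (regular support up to a scalar at the regular place; `SpecZ.lean`, request of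
helper797), closed (helper32, the proof of helper942). -/
theorem closed_regularZ (s : AdelicAut K) (l : ℕ) (k : Subfield K) : RegularOfIwahoriZ s l k :=
  H32.regularOfIwahoriZ32 s l k

/-- The geometric unfolding, CLOSED (T5.07 + T5.08). -/
theorem closed_unfold (s : AdelicAut K) (l : ℕ) (k : Subfield K) (𝔫 : Ideal (𝓞 K))
    (τ : G K → ℂ) (hcyc : IsCyclicOfDegree s l k) : GeomUnfold s l k 𝔫 τ :=
  top_Unfold s l k 𝔫 τ hcyc (closed_twFinite s l k 𝔫 τ) (closed_twUnfold s 𝔫 τ)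

/-- Frames exist, unconditionally (adapter of helper62 on tower T1; `σ = id`). -/
theorem closed_frame (𝔫 : Ideal (𝓞 K)) :
    ∃ (μ : Measure (G K)) (F : Set (G K)) (r : G K),
      IsFrame μ F ∧ IsRayGen r ∧ AutPreserves (AdelicAut.id K) 𝔫 μ r :=
  H62.frame_exists_of_T1Out62 K 𝔫 (T1.t1Out K)

/-! ## The tower from T5.02 + T5.04, and from T5.04 alone -/

/-- The tower from T5.02 and T5.04 (all other leaves are closed). -/
theorem tower_of_hs0_range (s : AdelicAut K) (l : ℕ) (k : Subfield K)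
    (𝔫 : Ideal (𝓞 K)) (τ : G K → ℂ) (hcyc : IsCyclicOfDegree s l k)
    (h0 : LeafHS0 𝔫 τ) (hR : LeafRange 𝔫 τ) : Tower s l k 𝔫 τ :=
  top s l k 𝔫 τ hcyc closed_abstractTrace h0 (closed_hs s 𝔫 τ h0) hR
    (closed_coeff s 𝔫 τ) (closed_diag s 𝔫 τ) (closed_twFinite s l k 𝔫 τ)
    (closed_twUnfold s 𝔫 τ) (closed_regular s l k)

/-- T5.02 from T5.04 (Banach–Steinhaus; helper807). -/
theorem closed_hs0_of_range (𝔫 : Ideal (𝓞 K)) (τ : G K → ℂ) (hR : LeafRange 𝔫 τ) :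
    LeafHS0 𝔫 τ :=
  H807.leafHS0_of_range807 (T1.t1Out K).locComp (T1.t1Out K).discrete (T1.t1Out K).adNorm
    𝔫 τ hR

/-- **The tower from T5.04 ALONE.** -/
theorem tower_of_range (s : AdelicAut K) (l : ℕ) (k : Subfield K)
    (𝔫 : Ideal (𝓞 K)) (τ : G K → ℂ) (hcyc : IsCyclicOfDegree s l k)
    (hR : LeafRange 𝔫 τ) : Tower s l k 𝔫 τ :=
  tower_of_hs0_range s l k 𝔫 τ hcyc (closed_hs0_of_range 𝔫 τ hR) hR

/-! ## Door R: the uniform row bound -/

/-- T5.04 from the row bound (helper74). -/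
theorem closed_range_of_rowBound (𝔫 : Ideal (𝓞 K)) (τ : G K → ℂ)
    (h : H74.RowBoundC74 𝔫 τ) : LeafRange 𝔫 τ :=
  H74.leafRange_rowBound74 𝔫 τ (T1.t1Out K) h

/-- **Door R: the tower from the uniform row bound of the EK kernel.** -/
theorem tower_of_rowBound (s : AdelicAut K) (l : ℕ) (k : Subfield K)
    (𝔫 : Ideal (𝓞 K)) (τ : G K → ℂ) (hcyc : IsCyclicOfDegree s l k)
    (h : H74.RowBoundC74 𝔫 τ) : Tower s l k 𝔫 τ :=
  tower_of_range s l k 𝔫 τ hcyc (closed_range_of_rowBound 𝔫 τ h)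

/-! ## Door B: the EK kernel is bounded -/

/-- The row bound from the boundedness of the kernel (helper74). -/
theorem rowBound_of_kerBdd (𝔫 : Ideal (𝓞 K)) (τ : G K → ℂ) (h : H40.KerBddC K 𝔫 τ) :
    H74.RowBoundC74 𝔫 τ := by
  intro μ F r hF hr φ hφ hek hek'
  obtain ⟨B, hB⟩ := h μ F r hF hr φ hφ hek hek'
  exact H74.rowBound_of_bounded74 μ F hF.finite r φ ⟨B, hB⟩

/-- **Door B: the tower from the boundedness of the EK kernel.** -/
theorem tower_of_kerBdd (s : AdelicAut K) (l : ℕ) (k : Subfield K)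
    (𝔫 : Ideal (𝓞 K)) (τ : G K → ℂ) (hcyc : IsCyclicOfDegree s l k)
    (h : H40.KerBddC K 𝔫 τ) : Tower s l k 𝔫 τ :=
  tower_of_rowBound s l k 𝔫 τ hcyc (rowBound_of_kerBdd 𝔫 τ h)

/-! ## Door S: the sup bound -/

/-- The row bound from the sup bound (helper873). -/
theorem rowBound_of_supBound (𝔫 : Ideal (𝓞 K)) (τ : G K → ℂ) (h : H873.SupBoundC 𝔫 τ) :
    H74.RowBoundC74 𝔫 τ :=
  H873.rowBoundC74_of_supBound873 (T1.t1Out K).locComp (T1.t1Out K).discrete
    (T1.t1Out K).adNorm 𝔫 τ h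

/-- **Door S: the tower from the sup bound of `R(φ)`, `φ` Eisenstein-killing.** -/
theorem tower_of_supBound (s : AdelicAut K) (l : ℕ) (k : Subfield K)
    (𝔫 : Ideal (𝓞 K)) (τ : G K → ℂ) (hcyc : IsCyclicOfDegree s l k)
    (h : H873.SupBoundC 𝔫 τ) : Tower s l k 𝔫 τ :=
  tower_of_rowBound s l k 𝔫 τ hcyc (rowBound_of_supBound 𝔫 τ h)

/-! ## Door T2: `GPSKillT` of tower T2 -/

/-- The `K_∞`-types of T5 and of T2 are the same. -/
theorem isKType_T2 {τ : G K → ℂ} (h : IsKType τ) : T2.IsKType τ :=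
  ⟨h.norm_one, h.mul, h.cont⟩

/-- The sup bound from `T2.GPSKillT` (helper873); the hypothesis is only used for a
`K_∞`-type `τ` (there is no test function of type `τ` otherwise). -/
theorem supBound_of_gpsKill (𝔫 : Ideal (𝓞 K)) (τ : G K → ℂ)
    (h : T2.IsKType τ → T2.GPSKillT K 𝔫 τ) : H873.SupBoundC 𝔫 τ := by
  intro μ F r hF hr φ hφ hek
  exact H873.supBoundC_of_T2_873 (T1.t1Out K) 𝔫 τ (h (isKType_T2 hφ.ktype)) μ F r hF hr φ hφ hek

/-- **Door T2: the tower from `T2.GPSKillT`.** -/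
theorem tower_of_gpsKill (s : AdelicAut K) (l : ℕ) (k : Subfield K)
    (𝔫 : Ideal (𝓞 K)) (τ : G K → ℂ) (hcyc : IsCyclicOfDegree s l k)
    (h : T2.IsKType τ → T2.GPSKillT K 𝔫 τ) : Tower s l k 𝔫 τ :=
  tower_of_supBound s l k 𝔫 τ hcyc (supBound_of_gpsKill 𝔫 τ h)

/-- **Door T2, leaf form: the tower from the leaves T2.23 and T2.33 of tower T2.** -/
theorem tower_of_T2 (s : AdelicAut K) (l : ℕ) (k : Subfield K)
    (𝔫 : Ideal (𝓞 K)) (τ : G K → ℂ) (h𝔫 : 𝔫 ≠ ⊥) (hcyc : IsCyclicOfDegree s l k)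
    (h03 : T2.LeafT03 K) (h13 : T2.LeafT13 K) : Tower s l k 𝔫 τ :=
  tower_of_gpsKill s l k 𝔫 τ hcyc fun hτ =>
    (h13 (T1.t1Out K) 𝔫 τ h𝔫 hτ (h03 (T1.t1Out K) 𝔫 τ h𝔫 hτ)).2

/-- **Door T2, core form: the tower from `T2.GPSCoreT`** (T2.33 closed by helper627). -/
theorem tower_of_gpsCore (s : AdelicAut K) (l : ℕ) (k : Subfield K)
    (𝔫 : Ideal (𝓞 K)) (τ : G K → ℂ) (hcyc : IsCyclicOfDegree s l k)
    (h : T2.IsKType τ → T2.GPSCoreT K 𝔫 τ) : Tower s l k 𝔫 τ :=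
  tower_of_gpsKill s l k 𝔫 τ hcyc fun hτ =>
    T2.H627.gpsKillT_of_core627 (T1.t1Out K) 𝔫 τ (h hτ)

/-- **Door T2, ONE leaf: the tower from the leaf T2.23 `LeafT03` of tower T2.** -/
theorem tower_of_leafT03 (s : AdelicAut K) (l : ℕ) (k : Subfield K)
    (𝔫 : Ideal (𝓞 K)) (τ : G K → ℂ) (h𝔫 : 𝔫 ≠ ⊥) (hcyc : IsCyclicOfDegree s l k)
    (h03 : T2.LeafT03 K) : Tower s l k 𝔫 τ :=
  tower_of_T2 s l k 𝔫 τ h𝔫 hcyc h03 (T2.H627.leafT13_627 K)

/-- **TOWER T5, CLOSED**: for every number field `K`, every adelic automorphism `s` of order `l`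
with fixed field `k`, every level `𝔫 ≠ 0` and every `K_∞`-type `τ`. -/
theorem tower_closed (s : AdelicAut K) (l : ℕ) (k : Subfield K)
    (𝔫 : Ideal (𝓞 K)) (τ : G K → ℂ) (h𝔫 : 𝔫 ≠ ⊥) (hcyc : IsCyclicOfDegree s l k) :
    Tower s l k 𝔫 τ :=
  tower_of_leafT03 s l k 𝔫 τ h𝔫 hcyc (T2.H32.leafT03_32 K)

/-- T5.02, CLOSED (level `𝔫 ≠ 0`). -/
theorem closed_hs0 (𝔫 : Ideal (𝓞 K)) (τ : G K → ℂ) (h𝔫 : 𝔫 ≠ ⊥) : LeafHS0 𝔫 τ :=
  (closed_hs0_of_range 𝔫 τ (closed_range_of_rowBound 𝔫 τ (rowBound_of_supBound 𝔫 τ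
    (supBound_of_gpsKill 𝔫 τ fun hτ =>
      (T2.H627.leafT13_627 K (T1.t1Out K) 𝔫 τ h𝔫 hτ
        (T2.H32.leafT03_32 K (T1.t1Out K) 𝔫 τ h𝔫 hτ)).2))))

/-- T5.04, CLOSED (level `𝔫 ≠ 0`). -/
theorem closed_range (𝔫 : Ideal (𝓞 K)) (τ : G K → ℂ) (h𝔫 : 𝔫 ≠ ⊥) : LeafRange 𝔫 τ :=
  closed_range_of_rowBound 𝔫 τ (rowBound_of_supBound 𝔫 τ
    (supBound_of_gpsKill 𝔫 τ fun hτ =>
      (T2.H627.leafT13_627 K (T1.t1Out K) 𝔫 τ h𝔫 hτ
        (T2.H32.leafT03_32 K (T1.t1Out K) 𝔫 τ h𝔫 hτ)).2))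

/-- The trace identity `STFsigma`, CLOSED (level `𝔫 ≠ 0`). -/
theorem closed_stf (s : AdelicAut K) (𝔫 : Ideal (𝓞 K)) (τ : G K → ℂ) (h𝔫 : 𝔫 ≠ ⊥) :
    STFsigma s 𝔫 τ :=
  top_STF s 𝔫 τ closed_abstractTrace (closed_hs0 𝔫 τ h𝔫)
    (closed_hs s 𝔫 τ (closed_hs0 𝔫 τ h𝔫)) (closed_range 𝔫 τ h𝔫)
    (closed_coeff s 𝔫 τ) (closed_diag s 𝔫 τ)

/-! ## Door A: the sub-leaves of the direct estimate (helper40) -/

/-- T5.02d, closed (helper176). -/
theorem closed_lowBdd : H40.LowBddC K := H176.lowBddC_of_T1Out176 (T1.t1Out K)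

/-- The height distortion under a compact set, closed (helper904). -/
theorem closed_heightDist : H40.HeightDistC K := H904.heightDist_of_T1Out904 K (T1.t1Out K)

/-- T5.02e, closed (helper392). -/
theorem closed_onlyBorel : H40.OnlyBorelC K :=
  H392.onlyBorel392 K closed_heightDist (T1.t1Out K).siegelSep (T1.t1Out K).height
    (T1.t1Out K).iwasawa (T1.t1Out K).adNorm

/-- T5.02f2, closed (helper800). -/
theorem closed_torusCount : H40.TorusCountC K := H800.torusCountC_of_T1Out800 (T1.t1Out K)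

/-- THE FRONTIER of T5 after Closed v9 in the form of the direct estimate (cut of helper40,
registry rows 1192 and 1194): the pointwise form of the Eisenstein-killing condition and THE
ANALYTIC CORE (lattice sum minus integral, bounded high in the cusp). -/
structure Open (𝔫 : Ideal (𝓞 K)) (τ : G K → ℂ) : Prop where
  ekPoint : H40.EKPointC K
  poissonTail : H40.PoissonTailC K 𝔫 τ

/-- The open sub-leaves of helper40 from the frontier. -/
theorem closed_hs0Open {𝔫 : Ideal (𝓞 K)} {τ : G K → ℂ} (h : Open 𝔫 τ) : H40.HS0Open K 𝔫 τ :=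
  ⟨closed_adjTest 𝔫 τ, closed_lowBdd, closed_onlyBorel, h.ekPoint, closed_torusCount,
    h.poissonTail, closed_covolOne⟩

/-- The kernel of an Eisenstein-killing test function is bounded (helper40). -/
theorem closed_kerBdd {𝔫 : Ideal (𝓞 K)} {τ : G K → ℂ} (h𝔫 : 𝔫 ≠ ⊥) (h : Open 𝔫 τ) :
    H40.KerBddC K 𝔫 τ :=
  H40.kerBdd_of_open40 𝔫 τ (closed_hs0Open h) (T1.t1Out K) h𝔫

/-- **Door A: the tower from the sub-leaves of the direct estimate.** -/
theorem tower_of_open (s : AdelicAut K) (l : ℕ) (k : Subfield K)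
    (𝔫 : Ideal (𝓞 K)) (τ : G K → ℂ) (h𝔫 : 𝔫 ≠ ⊥) (hcyc : IsCyclicOfDegree s l k)
    (h : Open 𝔫 τ) : Tower s l k 𝔫 τ :=
  tower_of_kerBdd s l k 𝔫 τ hcyc (closed_kerBdd h𝔫 h)

end Fermat.Agent.LT.T5

end
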